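import Mathlib
import Fermat.Agent.LT.T2.H175.TauSpec
import Fermat.Agent.LT.T2.H833.ConvShape

/-!
# Row LT, tower T2, sub-leaf T2.22d.1 `ShapeTC175` (SHAPE, type `τ`) -- helper79, registry 1346

OFF-MAIN.  `shapeTC_79 K : H175.ShapeTC175 K`, VERBATIM against `LT/T2/H175/TauSpec.lean`
(helper175@f81a7bf74, sha256 `da27a6e8…`).

The convolution kernel `(f₁ ⋆ f₂)(g) = ∫ f₁(h) f₂(h⁻¹ g) dμ(h)` of two functions of spherical
shape of type `τ` has spherical shape of type `τ`.  This is the proof of `convShapeC833`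
(helper833, `LT/T2/H833/ConvShape.lean`, byte-identical copy, imported) with the factor `τ(k)⁻¹`:

* on the right: pointwise equality of the integrands and `integral_const_mul`;
* on the left: `integral_mul_left_eq_self` (left invariance of the Haar measure, valid for every
  function) and `integral_const_mul`;
* support: `exists_of_convKer_ne_zero833`, `isBadUnit_mul833`.

No regularity and no integrability is used; `T1.LocCompC K` is not needed; `τ` is arbitrary.
-/

set_option autoImplicit false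

open IsDedekindDomain NumberField MeasureTheory AutomorphicForm
open Fermat.Agent.LT.H556.A0

noncomputable section

namespace Fermat.Agent.LT.T2.H79

open Fermat.Agent.LT.T2 Fermat.Agent.LT.T2.H724 Fermat.Agent.LT.T2.H175

variable {K : Type} [Field K] [NumberField K]

attribute [local instance] Fermat.Agent.LT.T2.borelG

/-- `f₁(u g) = c f₁(g)` for all `g` gives `(f₁ ⋆ f₂)(u g) = c (f₁ ⋆ f₂)(g)`. -/
theorem convKer_leftT79 (F : Frame K) (f₁ f₂ : G K → ℂ) (u : G K) (c : ℂ)
    (hu : ∀ g : G K, f₁ (u * g) = c * f₁ g) (g : G K) :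
    convKer724 F f₁ f₂ (u * g) = c * convKer724 F f₁ f₂ g := by
  have : BorelSpace (G K) := ⟨rfl⟩
  have := F.haar
  unfold convKer724
  rw [← integral_mul_left_eq_self (μ := F.μ) (fun h => f₁ h * f₂ (h⁻¹ * (u * g))) u,
    ← integral_const_mul]
  refine integral_congr_ae (Filter.Eventually.of_forall fun h => ?_)
  simp only
  rw [hu h, mul_inv_rev, mul_assoc c, mul_assoc h⁻¹, inv_mul_cancel_left]

/-- `f₂(g u) = c f₂(g)` for all `g` gives `(f₁ ⋆ f₂)(g u) = c (f₁ ⋆ f₂)(g)`. -/
theorem convKer_rightT79 (F : Frame K) (f₁ f₂ : G K → ℂ) (u : G K) (c : ℂ)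
    (hu : ∀ g : G K, f₂ (g * u) = c * f₂ g) (g : G K) :
    convKer724 F f₁ f₂ (g * u) = c * convKer724 F f₁ f₂ g := by
  unfold convKer724
  rw [← integral_const_mul]
  refine integral_congr_ae (Filter.Eventually.of_forall fun h => ?_)
  simp only
  rw [← mul_assoc h⁻¹ g u, hu, mul_left_comm]

/-- **T2.22d.1 SHAPE, type `τ`** (registry row 1346), VERBATIM. -/
theorem shapeTC_79 (K : Type) [Field K] [NumberField K] : ShapeTC175 K := by
  intro _ 𝔫 τ F f₁ f₂ h₁ h₂
  refine ⟨?_, ?_, ?_, ?_, ?_⟩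
  · intro u hu g
    exact H833.convKer_right833 F f₁ f₂ u (h₂.level_right u hu) g
  · intro u hu g
    exact H833.convKer_left833 F f₁ f₂ u (h₁.level_left u hu) g
  · intro w k hk g
    exact convKer_rightT79 F f₁ f₂ k (τ k)⁻¹ (h₂.arch_right w k hk) g
  · intro w k hk g
    exact convKer_leftT79 F f₁ f₂ k (τ k)⁻¹ (h₁.arch_left w k hk) g
  · intro g hg
    obtain ⟨h, hh1, hh2⟩ := H833.exists_of_convKer_ne_zero833 F f₁ f₂ g hg
    have e : g = h * (h⁻¹ * g) := by rw [mul_inv_cancel_left]
    rw [e]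
    exact H833.isBadUnit_mul833 (h₁.bad_unit h hh1) (h₂.bad_unit _ hh2)

end Fermat.Agent.LT.T2.H79

end
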