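import Fermat.Agent.LT.T2.H291.OpsSpecT
import Fermat.Agent.LT.H972.GelfandCore
import Fermat.Agent.LT.H129.HeckeLevel

/-!
# Row LT, tower T2, sub-leaf T2.27.11 `SubCommConvHeckeT291` -- helper79, registry 1393

OFF-MAIN.  `subCommConvHeckeT_79 K : H291.SubCommConvHeckeT291 K`, VERBATIM against
`LT/T2/H291/OpsSpecT.lean` (helper291@22c6ecc98, sha256 `c8359c85…`).

A convolution by a spherical test function of type `τ` commutes with a Hecke sum at a place
`v ∤ 𝔫`, on the cusp functions of the class `(𝔫, τ, r)`.  This is the Spec-independent core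
`H972.conv_hecke_comm972` of helper972 (`LT/H972/GelfandCore.lean`, byte-identical copy, imported:
Gelfand's trick at `v`) applied to the Haar measure of the frame: it is right invariant by
`T1.UnimodC`; a function of level `U(𝔫)` is invariant under `GL₂(𝒪_v)` at `v ∤ 𝔫`
(`H129.inLevelGroup_of_localMaxCpt129`).  The type `τ`, the ray generator `r` and cuspidality play
no role.
-/

set_option autoImplicit false

open IsDedekindDomain NumberField MeasureTheory AutomorphicForm
open Fermat.Agent.LT.H556.A0

noncomputable section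

namespace Fermat.Agent.LT.T2.H79

open Fermat.Agent.LT Fermat.Agent.LT.T2 Fermat.Agent.LT.T2.H291 Fermat.Agent.LT.H129

attribute [local instance] Fermat.Agent.LT.T2.borelG

/-- **T2.27.11** (registry row 1393), VERBATIM. -/
theorem subCommConvHeckeT_79 (K : Type) [Field K] [NumberField K] : SubCommConvHeckeT291 K := by
  intro 𝔫 τ c R f hf v hv H hH φ hφ
  have : BorelSpace (G K) := ⟨rfl⟩
  have := R.F.haar
  have : R.F.μ.IsMulRightInvariant := c.t1.unimod R.F.μ R.F.haar
  funext x
  change ∫ y, (∑ h ∈ H, φ (x * y * h)) * f y ∂(R.F.μ)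
    = ∑ h ∈ H, ∫ y, φ (x * h * y) * f y ∂(R.F.μ)
  exact H972.conv_hecke_comm972 hH R.F.μ hφ.aut.cont
    (fun u hu g => hφ.aut.level_inv u (inLevelGroup_of_localMaxCpt129 hv hu) g)
    hf.test.cont hf.test.cpt
    ⟨fun u hu g => hf.test.level_right u (inLevelGroup_of_localMaxCpt129 hv hu) g,
      fun u hu g => hf.test.level_left u (inLevelGroup_of_localMaxCpt129 hv hu) g⟩ x

end Fermat.Agent.LT.T2.H79

end
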