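import Mathlib
import Fermat.Agent.LT.T2.H941.SmoSpec

/-!
# Row LT, tower T2, station T2.10 (SMO), sub-leaf T2.10.03 `WhitDetC` (helper79)

OFF-MAIN.  Fourier uniqueness along `N`: `leaf03_79 K : H941.Leaf03 K`, i.e.
`T1.T1Out K → T3.CompleteNDC K → T3.HaarScaleC K → H941.WhitDetC K`, VERBATIM against
`LT/T2/H941/SmoSpec.lean` (helper941, sha256 `41255efa7193…`).

`F(x) = Φ(n(x) g)` is a continuous function on `𝔸_K / K`.  Its Fourier coefficient at `η = 0`
vanishes by cuspidality; at `η ≠ 0`, with `α = -η`, the substitution `x = α y` (`T3.HaarScaleC`: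
multiplication by `α` preserves the Haar measure; the image of a fundamental domain of `K` is a
fundamental domain of `K`; the integral of a `K`-periodic function does not depend on the
fundamental domain) and `n(α y) diag(α, 1) = diag(α, 1) n(y)` identify it with
`W_Φ(diag(α, 1) g) = 0`.  `T3.CompleteNDC` gives `F = 0`, and `Φ(g) = F(0)`.
(`T1.T1Out K` is not used.)
-/

set_option autoImplicit false
set_option linter.style.haveILetI false
set_option linter.unusedVariables false

open IsDedekindDomain NumberField MeasureTheory AutomorphicForm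
open Fermat.Agent.LT.H556.A0
open scoped MatrixGroups

noncomputable section

namespace Fermat.Agent.LT.T2.H79

open Fermat.Agent.LT Fermat.Agent.LT.T2.H941

variable {K : Type} [Field K] [NumberField K]

/-! ## The unipotent family -/

theorem unip_zero79 : T3.unip K (0 : Adl K) = 1 := by
  apply Units.ext
  rw [T3.unip_coe]
  ext i j
  fin_cases i <;> fin_cases j <;> simp

theorem unip_add79 (x y : Adl K) : T3.unip K (x + y) = T3.unip K x * T3.unip K y := by
  apply Units.ext
  rw [Units.val_mul, T3.unip_coe, T3.unip_coe, T3.unip_coe]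
  ext i j
  fin_cases i <;> fin_cases j <;> simp [Matrix.mul_apply, Fin.sum_univ_two, add_comm]

/-- `n(x) diag(α, 1) = diag(α, 1) n(α⁻¹ x)`. -/
theorem unip_mul_torK79 (α : Kˣ) (x : Adl K) :
    T3.unip K x * T3.torK K α
      = T3.torK K α * T3.unip K (T3.emb K ((α⁻¹ : Kˣ) : K) * x) := by
  apply Units.ext
  rw [Units.val_mul, Units.val_mul, T3.unip_coe, T3.unip_coe, T3.torK_coe]
  have h : T3.emb K (α : K) * T3.emb K ((α : K)⁻¹) = 1 := by
    rw [← map_mul, mul_inv_cancel₀ α.ne_zero, map_one]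
  ext i j
  fin_cases i <;> fin_cases j <;>
    simp [Matrix.mul_apply, Fin.sum_univ_two, ← mul_assoc, h]

theorem continuous_unip79 : Continuous (T3.unip K : Adl K → G K) := by
  rw [Units.continuous_iff]
  constructor
  · refine continuous_matrix fun i j => ?_
    fin_cases i <;> fin_cases j
    · exact continuous_const
    · exact continuous_id
    · exact continuous_const
    · exact continuous_const
  · refine continuous_matrix fun i j => ?_
    fin_cases i <;> fin_cases j
    · exact continuous_const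
    · exact continuous_neg
    · exact continuous_const
    · exact continuous_const

/-! ## Countability of the principal adeles -/

theorem countable_K79 : Countable K :=
  (Module.finBasis ℚ K).equivFun.toEquiv.injective.countable

theorem countable_princ79 : Countable ↥(T1.princ K) := by
  haveI : Countable K := countable_K79
  exact (AddMonoidHom.rangeRestrict_surjective (algebraMap K (Adl K)).toAddMonoidHom).countable

/-! ## Multiplication by a principal idele -/

/-- The unit `emb α` of `𝔸_K`. -/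
def embU79 (α : Kˣ) : (Adl K)ˣ := Units.map (T3.emb K).toMonoidHom α

theorem embU79_coe (α : Kˣ) : ((embU79 α : (Adl K)ˣ) : Adl K) = T3.emb K (α : K) := rfl

theorem embU79_inv_coe (α : Kˣ) :
    (((embU79 α)⁻¹ : (Adl K)ˣ) : Adl K) = T3.emb K ((α⁻¹ : Kˣ) : K) := by
  have h : (embU79 α)⁻¹ = embU79 (K := K) α⁻¹ := (map_inv (Units.map (T3.emb K).toMonoidHom) α).symm
  rw [h]
  rfl

/-- Multiplication by `emb α` as a permutation of `𝔸_K`. -/
def mulE79 (α : Kˣ) : Adl K ≃ Adl K := Units.mulLeft (embU79 α)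

theorem mulE79_apply (α : Kˣ) (x : Adl K) : mulE79 α x = T3.emb K (α : K) * x := rfl

theorem mulE79_symm_apply (α : Kˣ) (x : Adl K) :
    (mulE79 α).symm x = T3.emb K ((α⁻¹ : Kˣ) : K) * x := by
  change (((embU79 α)⁻¹ : (Adl K)ˣ) : Adl K) * x = _
  rw [embU79_inv_coe]

theorem mem_princ79 (a : Adl K) : a ∈ T1.princ K ↔ ∃ ξ : K, T3.emb K ξ = a := Iff.rfl

theorem emb_mul_mem_princ79 (α : Kˣ) (a : Adl K) :
    a ∈ T1.princ K ↔ T3.emb K ((α⁻¹ : Kˣ) : K) * a ∈ T1.princ K := by
  rw [mem_princ79, mem_princ79]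
  constructor
  · rintro ⟨ξ, rfl⟩
    exact ⟨((α⁻¹ : Kˣ) : K) * ξ, map_mul _ _ _⟩
  · rintro ⟨ξ, hξ⟩
    refine ⟨(α : K) * ξ, ?_⟩
    rw [map_mul, hξ, ← mul_assoc, ← map_mul]
    simp

/-- Multiplication by `emb α⁻¹` on the principal adeles. -/
def princE79 (α : Kˣ) : ↥(T1.princ K) ≃ ↥(T1.princ K) :=
  (mulE79 α).symm.subtypeEquiv fun a => by
    rw [mulE79_symm_apply]
    exact emb_mul_mem_princ79 α a

theorem princE79_coe (α : Kˣ) (a : ↥(T1.princ K)) :
    ((princE79 α a : ↥(T1.princ K)) : Adl K) = T3.emb K ((α⁻¹ : Kˣ) : K) * (a : Adl K) := by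
  change (mulE79 α).symm (a : Adl K) = _
  rw [mulE79_symm_apply]

/-! ## The Fourier coefficient at `η = -α` is the Whittaker coefficient at `diag(α, 1) g` -/

theorem conj_circle79 (ψ : AddChar (Adl K) Circle) (x : Adl K) :
    (starRingEnd ℂ) ((ψ x : Circle) : ℂ) = ((ψ (-x) : Circle) : ℂ) := by
  rw [AddChar.map_neg_eq_inv, Circle.coe_inv_eq_conj]

theorem coeff79 [MeasurableSpace (Adl K)] [BorelSpace (Adl K)]
    (hS : ∀ ν : Measure (Adl K), ν.IsAddHaarMeasure → ∀ α : Kˣ,
      Measure.map (fun x : Adl K => T3.emb K (α : K) * x) ν = ν)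
    (ψ : AddChar (Adl K) Circle) (hψ : T3.IsStdChar K ψ)
    (ν : Measure (Adl K)) (hν : ν.IsAddHaarMeasure) (D : Set (Adl K))
    (hD : IsAddFundamentalDomain (T1.princ K) D ν)
    (Φ : G K → ℂ)
    (hN : ∀ (ξ : K) (g : G K), Φ (T3.unip K (algebraMap K (Adl K) ξ) * g) = Φ g)
    (hT : ∀ (α : Kˣ) (g : G K), Φ (T3.torK K α * g) = Φ g)
    (g : G K) (α : Kˣ) :
    ∫ x in D, Φ (T3.unip K x * g) * ((ψ (x * T3.emb K (-(α : K))) : Circle) : ℂ) ∂ν
      = wh ψ ν D Φ (T3.torK K α * g) := by
  haveI := hν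
  haveI : Countable ↥(T1.princ K) := countable_princ79
  set Gf : Adl K → ℂ := fun x =>
    Φ (T3.unip K x * (T3.torK K α * g)) * (starRingEnd ℂ) ((ψ x : Circle) : ℂ) with hG
  have hGp : ∀ (a : ↥(T1.princ K)) (x : Adl K), Gf (a +ᵥ x) = Gf x := by
    rintro ⟨a, ξ, rfl⟩ x
    simp only [hG]
    rw [AddSubgroup.vadd_def, vadd_eq_add]
    change Φ (T3.unip K (algebraMap K (Adl K) ξ + x) * (T3.torK K α * g)) *
        (starRingEnd ℂ) ((ψ (T3.emb K ξ + x) : Circle) : ℂ) = _
    rw [unip_add79, mul_assoc, hN, AddChar.map_add_eq_mul, hψ.triv, one_mul]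
  have hmp : MeasurePreserving (mulE79 α) ν ν :=
    ⟨(continuous_const.mul continuous_id).measurable, hS ν hν α⟩
  have hmp' : MeasurePreserving (mulE79 α).symm ν ν := by
    refine ⟨?_, ?_⟩
    · have : ((mulE79 α).symm : Adl K → Adl K)
          = fun x => T3.emb K ((α⁻¹ : Kˣ) : K) * x := funext (mulE79_symm_apply α)
      rw [this]
      exact (continuous_const.mul continuous_id).measurable
    · have : ((mulE79 α).symm : Adl K → Adl K)
          = fun x => T3.emb K ((α⁻¹ : Kˣ) : K) * x := funext (mulE79_symm_apply α)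
      rw [this]
      exact hS ν hν α⁻¹
  have hme : MeasurableEmbedding (mulE79 α) :=
    (MeasurableEquiv.mk (mulE79 α) hmp.measurable hmp'.measurable).measurableEmbedding
  have hD' : IsAddFundamentalDomain (T1.princ K) (mulE79 α '' D) ν := by
    refine hD.image_of_equiv (mulE79 α) hmp'.quasiMeasurePreserving (princE79 α) fun a x => ?_
    change mulE79 α (princE79 α a +ᵥ x) = a +ᵥ mulE79 α x
    rw [AddSubgroup.vadd_def, AddSubgroup.vadd_def, vadd_eq_add, vadd_eq_add, princE79_coe,
      mulE79_apply, mulE79_apply, mul_add, ← mul_assoc, ← map_mul]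
    simp
  have h1 : wh ψ ν D Φ (T3.torK K α * g) = ∫ x in D, Gf x ∂ν := rfl
  rw [h1, hD.setIntegral_eq hD' hGp, hmp.setIntegral_image_emb hme]
  congr 1
  funext y
  simp only [hG]
  rw [mulE79_apply, ← mul_assoc (T3.unip K _) (T3.torK K α) g,
    unip_mul_torK79, mul_assoc, hT, conj_circle79]
  have e1 : T3.emb K ((α⁻¹ : Kˣ) : K) * (T3.emb K (α : K) * y) = y := by
    rw [← mul_assoc, ← map_mul]; simp
  have e2 : y * T3.emb K (-(α : K)) = -(T3.emb K (α : K) * y) := by
    rw [map_neg, mul_neg, mul_comm]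
  rw [e1, e2]

/-! ## T2.10.03 -/

/-- **T2.10.03 `WhitDetC`** (Fourier uniqueness along `N`). -/
theorem whitDet79 (hC : T3.CompleteNDC K) (hS : T3.HaarScaleC K) : WhitDetC K := by
  letI : MeasurableSpace (Adl K) := borel (Adl K)
  haveI : BorelSpace (Adl K) := ⟨rfl⟩
  intro ψ ν D hW Φ hΦc hN hT hcusp g hwh
  obtain ⟨hstd, hnd, -, hν, -, hDf, -⟩ := hW
  have hFc : Continuous fun x : Adl K => Φ (T3.unip K x * g) :=
    hΦc.comp (continuous_unip79.mul continuous_const)
  have hFp : ∀ (ξ : K) (x : Adl K),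
      (fun x : Adl K => Φ (T3.unip K x * g)) (x + T3.emb K ξ)
        = (fun x : Adl K => Φ (T3.unip K x * g)) x := by
    intro ξ x
    change Φ (T3.unip K (x + algebraMap K (Adl K) ξ) * g) = Φ (T3.unip K x * g)
    rw [add_comm, unip_add79, mul_assoc, hN]
  have key := hC ψ hstd hnd ν hν D hDf (fun x : Adl K => Φ (T3.unip K x * g)) hFc hFp ?_ 0
  · simpa [unip_zero79] using key
  intro η
  by_cases hη : η = 0
  · subst hη
    have h0 := hcusp ν hν D hDf (T3.unip K) (T3.unip_coe K) g
    simpa using h0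
  · have hα : (((Units.mk0 (-η) (neg_ne_zero.mpr hη) : Kˣ) : K)) = -η := rfl
    have h2 := coeff79 hS ψ hstd ν hν D hDf Φ hN hT g (Units.mk0 (-η) (neg_ne_zero.mpr hη))
    rw [hα, neg_neg, hwh] at h2
    exact h2

/-- **T2.10.03**, VERBATIM against `SmoSpec.Leaf03`. -/
theorem leaf03_79 (K : Type) [Field K] [NumberField K] : H941.Leaf03 K :=
  fun _ hC hS => whitDet79 hC hS

end Fermat.Agent.LT.T2.H79

end
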